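/-
S18 / wave 4 (helper71), leaf C2 (`card_le_of_approx`), part (a): the DENOMINATOR LEMMA on the
generic fibre.

`F` is a finite separable extension of `E = Frac K[X]` (in the application `E = K(y)` for a base
function `y ∈ F`, `X ↦ y`).  For `g ∈ F` there is `s₀ ∈ K[X]`, `s₀ ≠ 0`, with `s₀(y) g` integral
over `K[y]`, and `s₀(c) ≠ 0` for every `c ∈ K` such that `g` has no pole at the places of `F` above
`y = c` (Prelude places).

Proof: `B` = integral closure of `K[X]` in `F` is a Dedekind domain; `s₀` generates the denominator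
ideal `{s | s(y) g ∈ B}`; if `s₀ = (X - c) s₁`, then `g₁ = s₁(y) g ∉ B` has a pole at a prime `𝔭`
of `B` containing `y - c`, and the valuation ring of `𝔭` is a Prelude place (S24/H52 `IsAddVal`).
-/
import Mathlib
import Fermat.Agent.S24.H52.AddVal

set_option autoImplicit false

open Polynomial IsDedekindDomain AlgebraicCurve

noncomputable section

namespace Fermat.Agent.S18.H71

open Fermat.Agent.S24.H52

section Place

variable {K : Type*} [Field K] {F : Type*} [Field F] [Algebra K F]

/-- The valuation ring of a height-one prime of a Dedekind domain `B` with fraction field `F`,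
containing the constants, is a place of `F/K`. -/
theorem exists_place_of_prime {B : Type*} [CommRing B] [IsDedekindDomain B] [Algebra B F]
    [IsFractionRing B F] (hKB : ∀ a : K, ∃ r : B, algebraMap B F r = algebraMap K F a)
    (𝔭 : HeightOneSpectrum B) :
    ∃ P : Place K F, ∀ f : F, f ≠ 0 → (0 ≤ P.ord f ↔ 𝔭.valuation F f ≤ 1) := by
  set w := 𝔭.valuation F with hw
  have ho : IsAddVal (fun f : F => -(WithZero.log (w f))) :=
    { map_one := by simp
      map_mul := by
        intro f g hf hg
        have hf' : w f ≠ 0 := (Valuation.ne_zero_iff _).mpr hf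
        have hg' : w g ≠ 0 := (Valuation.ne_zero_iff _).mpr hg
        simp only [map_mul, WithZero.log_mul hf' hg']
        ring
      map_add := by
        intro f g hf hg hfg
        have hf' : w f ≠ 0 := (Valuation.ne_zero_iff _).mpr hf
        have hg' : w g ≠ 0 := (Valuation.ne_zero_iff _).mpr hg
        have hfg' : w (f + g) ≠ 0 := (Valuation.ne_zero_iff _).mpr hfg
        rcases le_max_iff.mp (Valuation.map_add w f g) with h1 | h1
        · have := (WithZero.log_le_log hfg' hf').mpr h1
          exact le_trans (min_le_left _ _) (by omega)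
        · have := (WithZero.log_le_log hfg' hg').mpr h1
          exact le_trans (min_le_right _ _) (by omega) }
  have key : ∀ f : F, f ≠ 0 → (0 ≤ -(WithZero.log (w f)) ↔ w f ≤ 1) := by
    intro f hf
    have hf' : w f ≠ 0 := (Valuation.ne_zero_iff _).mpr hf
    have := WithZero.log_le_log hf' (one_ne_zero (α := WithZero (Multiplicative ℤ)))
    rw [WithZero.log_one] at this
    rw [← this]
    omega
  have hK : ∀ a : K, algebraMap K F a ≠ 0 → 0 ≤ -(WithZero.log (w (algebraMap K F a))) := by
    intro a ha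
    rw [key _ ha]
    obtain ⟨r, hr⟩ := hKB a
    rw [← hr]
    exact 𝔭.valuation_le_one r
  have hneg : ∃ f : F, f ≠ 0 ∧ -(WithZero.log (w f)) < 0 := by
    obtain ⟨r, hr, hr0⟩ := Submodule.exists_mem_ne_zero_of_ne_bot 𝔭.ne_bot
    have hr0' : algebraMap B F r ≠ 0 := by
      rwa [Ne, map_eq_zero_iff _ (IsFractionRing.injective B F)]
    have h1 : w (algebraMap B F r) < 1 := (𝔭.valuation_lt_one_iff_mem r).mpr hr
    refine ⟨(algebraMap B F r)⁻¹, inv_ne_zero hr0', ?_⟩
    have h2 := key _ (inv_ne_zero hr0')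
    have h3 : ¬ w (algebraMap B F r)⁻¹ ≤ 1 := by
      rw [map_inv₀, not_le]
      exact (one_lt_inv₀ (lt_of_le_of_ne zero_le
        (Ne.symm ((Valuation.ne_zero_iff _).mpr hr0')))).mpr h1
    by_contra h4
    exact h3 (h2.mp (by omega))
  refine ⟨ho.place hK hneg, fun f hf => ?_⟩
  rw [← mem_iff_ord_nonneg _ hf, ← key f hf]
  show f ∈ ho.valuationSubring ↔ _
  rw [ho.mem_valuationSubring_iff_of_ne hf]

end Place

section Denominator

theorem algebraMap_polynomial_injective {K : Type*} [Field K] (E : Type*) [Field E] {F : Type*}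
    [Field F] [Algebra K[X] E] [IsFractionRing K[X] E] [Algebra E F] [Algebra K[X] F]
    [IsScalarTower K[X] E F] : Function.Injective (algebraMap K[X] F) := by
  rw [IsScalarTower.algebraMap_eq K[X] E F]
  exact (algebraMap E F).injective.comp (IsFractionRing.injective K[X] E)

/-- **Denominator lemma.** -/
theorem exists_denominator {K : Type*} [Field K] (E : Type*) [Field E] {F : Type*} [Field F]
    [Algebra K F] [Algebra K[X] E] [IsFractionRing K[X] E] [Algebra E F] [Algebra K[X] F]
    [IsScalarTower K[X] E F] [FiniteDimensional E F] [Algebra.IsSeparable E F]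
    (hK : ∀ a : K, algebraMap K[X] F (C a) = algebraMap K F a) (g : F) :
    ∃ s₀ : K[X], s₀ ≠ 0 ∧ IsIntegral K[X] (algebraMap K[X] F s₀ * g) ∧
      ∀ c : K, (∀ P : Place K F, 0 < P.ord (algebraMap K[X] F X - algebraMap K F c) →
        0 ≤ P.ord g) → s₀.eval c ≠ 0 := by
  classical
  have : IsDedekindDomain (integralClosure K[X] F) := integralClosure.isDedekindDomain K[X] E F
  have : IsFractionRing (integralClosure K[X] F) F :=
    integralClosure.isFractionRing_of_finite_extension E F
  have hinj : Function.Injective (algebraMap K[X] F) := algebraMap_polynomial_injective E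
  -- the denominator ideal
  let I : Ideal K[X] :=
    { carrier := {s | IsIntegral K[X] (algebraMap K[X] F s * g)}
      add_mem' := by
        intro a b ha hb
        simp only [Set.mem_ofPred_eq, map_add, add_mul] at ha hb ⊢
        exact ha.add hb
      zero_mem' := by
        simp only [Set.mem_ofPred_eq, map_zero, zero_mul]
        exact isIntegral_zero
      smul_mem' := by
        intro c a ha
        simp only [Set.mem_ofPred_eq, smul_eq_mul, map_mul, mul_assoc] at ha ⊢
        exact isIntegral_algebraMap.mul ha }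
  have hImem : ∀ s, s ∈ I ↔ IsIntegral K[X] (algebraMap K[X] F s * g) := fun s => Iff.rfl
  obtain ⟨s₀, hs₀⟩ : ∃ s₀, I = Ideal.span {s₀} := (IsPrincipalIdealRing.principal I).principal
  have hs₀I : s₀ ∈ I := by rw [hs₀]; exact Ideal.mem_span_singleton_self s₀
  have hs₀0 : s₀ ≠ 0 := by
    rintro rfl
    obtain ⟨y, hy0, hy⟩ := exists_integral_multiples K[X] E ({g} : Finset F)
    have h1 : y ∈ I := by
      rw [hImem, ← Algebra.smul_def]
      exact hy g (Finset.mem_singleton_self g)
    rw [hs₀, Ideal.mem_span_singleton, zero_dvd_iff] at h1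
    exact hy0 h1
  refine ⟨s₀, hs₀0, (hImem s₀).mp hs₀I, fun c hc hroot => ?_⟩
  obtain ⟨s₁, hs₁⟩ : X - C c ∣ s₀ := dvd_iff_isRoot.mpr hroot
  have hs₁0 : s₁ ≠ 0 := by
    rintro rfl
    exact hs₀0 (by rw [hs₁, mul_zero])
  have hs₁I : s₁ ∉ I := by
    intro h
    rw [hs₀, Ideal.mem_span_singleton] at h
    obtain ⟨t, ht⟩ := h
    have h1 : s₁ * 1 = s₁ * ((X - C c) * t) := by
      rw [mul_one]
      conv_lhs => rw [ht, hs₁]
      ring
    have h2 : (X - C c) * t = 1 := (mul_left_cancel₀ hs₁0 h1).symm
    exact not_isUnit_X_sub_C c (IsUnit.of_mul_eq_one t h2)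
  set g₁ : F := algebraMap K[X] F s₁ * g with hg₁
  -- a prime of `B` where `g₁` has a pole
  obtain ⟨𝔭, h𝔭⟩ : ∃ 𝔭 : HeightOneSpectrum (integralClosure K[X] F), ¬ 𝔭.valuation F g₁ ≤ 1 := by
    by_contra hall
    push Not at hall
    obtain ⟨r, hr⟩ := HeightOneSpectrum.mem_integers_of_valuation_le_one F g₁ hall
    apply hs₁I
    rw [hImem, ← hg₁, ← hr]
    exact r.2
  rw [not_le] at h𝔭
  set w := 𝔭.valuation F with hw
  have hBle : ∀ z : F, IsIntegral K[X] z → w z ≤ 1 := by
    intro z hz
    exact 𝔭.valuation_le_one (⟨z, hz⟩ : integralClosure K[X] F)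
  have hy : algebraMap K[X] F X - algebraMap K F c = algebraMap K[X] F (X - C c) := by
    rw [map_sub, hK]
  have hyne : algebraMap K[X] F X - algebraMap K F c ≠ 0 := by
    rw [hy, Ne, map_eq_zero_iff _ hinj]
    exact X_sub_C_ne_zero c
  have h1 : w ((algebraMap K[X] F X - algebraMap K F c) * g₁) ≤ 1 := by
    apply hBle
    have : (algebraMap K[X] F X - algebraMap K F c) * g₁ = algebraMap K[X] F s₀ * g := by
      rw [hy, hg₁, ← mul_assoc, ← map_mul, ← hs₁]
    rw [this]
    exact (hImem s₀).mp hs₀I
  have hwy : w (algebraMap K[X] F X - algebraMap K F c) < 1 := by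
    by_contra h2
    rw [not_lt] at h2
    rw [map_mul] at h1
    have := mul_le_mul' h2 (le_refl (w g₁))
    rw [one_mul] at this
    exact absurd (lt_of_lt_of_le h𝔭 (this.trans h1)) (lt_irrefl _)
  have hwg : 1 < w g := by
    by_contra h2
    rw [not_lt] at h2
    have h3 : w g₁ ≤ 1 := by
      rw [hg₁, map_mul]
      calc w (algebraMap K[X] F s₁) * w g ≤ 1 * 1 :=
            mul_le_mul' (hBle _ isIntegral_algebraMap) h2
        _ = 1 := one_mul 1
    exact absurd (lt_of_lt_of_le h𝔭 h3) (lt_irrefl _)
  have hg0 : g ≠ 0 := by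
    rintro rfl
    rw [map_zero] at hwg
    exact absurd hwg (not_lt.mpr zero_le)
  obtain ⟨P, hP⟩ := exists_place_of_prime (K := K)
    (fun a => ⟨⟨algebraMap K[X] F (C a), isIntegral_algebraMap⟩, hK a⟩) 𝔭
  have hord : 0 < P.ord (algebraMap K[X] F X - algebraMap K F c) := by
    have h2 := hP _ (inv_ne_zero hyne)
    rw [P.ord_inv, map_inv₀] at h2
    have h3 : ¬ (w (algebraMap K[X] F X - algebraMap K F c))⁻¹ ≤ 1 := by
      rw [not_le]
      exact (one_lt_inv₀ (lt_of_le_of_ne zero_le
        (Ne.symm ((Valuation.ne_zero_iff _).mpr hyne)))).mpr hwy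
    by_contra h4
    exact h3 (h2.mp (by omega))
  exact absurd ((hP g hg0).mp (hc P hord)) (not_le.mpr hwg)

end Denominator

end Fermat.Agent.S18.H71
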