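/-
S18 / wave 4 (helper71), leaf C2 (`card_le_of_approx`), part (b1): RESIDUE MAPS for a Gauss
valuation ring.

`A ⊆ K`, `O ⊆ F` valuation rings with `O ∩ K = A` (`hmem`) and the Gauss property for `x ∈ F`
(`GaussHyp A O x`, S18/H49).  We construct
* `inclHom : A →+* O`, `resHom : k_A →+* k_O` on residue fields;
* `polyHom t : A[X] →+* O` (`X ↦ t`) and `evRes t̄ : k_A[X] →+* k_O`, compatible with reduction;
* `evRes_ne_zero` : `x̄` is transcendental over `k_A`;
* `residue_eval_ne_zero` : a primitive polynomial without roots in the residue disc `b + m_A`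
  has a reduction which does not vanish at `b̄` (`K` algebraically closed).
-/
import Mathlib
import Fermat.Agent.S18.H49.Cartesian

set_option autoImplicit false

open Polynomial IsLocalRing

noncomputable section

namespace Fermat.Agent.S18.H71

open Fermat.Agent.S18.H49

variable {K : Type*} [Field K] {A : ValuationSubring K} {F : Type*} [Field F] [Algebra K F]
  {O : ValuationSubring F} {x : F}

/-- `z ∈ A` and `z⁻¹ ∈ A`, `z ≠ 0`: `z` is a unit of `A`. -/
theorem isUnit_of_mem_of_inv_mem {L : Type*} [Field L] (V : ValuationSubring L) {z : L}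
    (hz : z ∈ V) (hzi : z⁻¹ ∈ V) (hz0 : z ≠ 0) : IsUnit (⟨z, hz⟩ : V) := by
  refine IsUnit.of_mul_eq_one (⟨z⁻¹, hzi⟩ : V) ?_
  ext
  exact mul_inv_cancel₀ hz0

/-- A unit of `A` has its inverse in `A`. -/
theorem inv_mem_of_isUnit {L : Type*} [Field L] (V : ValuationSubring L) {z : V}
    (hz : IsUnit z) : ((z : L))⁻¹ ∈ V ∧ (z : L) ≠ 0 := by
  obtain ⟨u, rfl⟩ := hz
  have h1 : ((u : V) : L) * ((u⁻¹ : Vˣ) : V) = 1 := by
    have h : ((u : V) * ((u⁻¹ : Vˣ) : V) : V) = 1 := u.mul_inv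
    exact_mod_cast congrArg (Subtype.val) h
  have h0 : ((u : V) : L) ≠ 0 := left_ne_zero_of_mul_eq_one h1
  refine ⟨?_, h0⟩
  have : ((u : V) : L)⁻¹ = ((u⁻¹ : Vˣ) : V) := inv_eq_of_mul_eq_one_right h1
  rw [this]
  exact ((u⁻¹ : Vˣ) : V).2

/-- The inclusion `A → O`. -/
def inclHom (hmem : ∀ a : K, algebraMap K F a ∈ O ↔ a ∈ A) : A →+* O :=
  ((algebraMap K F).comp A.subtype).codRestrict O.toSubring (fun a => (hmem a).mpr a.2)

@[simp]
theorem coe_inclHom (hmem : ∀ a : K, algebraMap K F a ∈ O ↔ a ∈ A) (a : A) :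
    ((inclHom hmem a : O) : F) = algebraMap K F a := rfl

instance isLocalHom_inclHom (hmem : ∀ a : K, algebraMap K F a ∈ O ↔ a ∈ A) :
    IsLocalHom (inclHom hmem) := by
  refine ⟨fun a ha => ?_⟩
  obtain ⟨hinv, h0⟩ := inv_mem_of_isUnit O ha
  rw [coe_inclHom] at hinv h0
  have ha0 : (a : K) ≠ 0 := fun h => h0 (by rw [h, map_zero])
  rw [← map_inv₀, hmem] at hinv
  exact isUnit_of_mem_of_inv_mem A a.2 hinv ha0

/-- The induced map on residue fields. -/
def resHom (hmem : ∀ a : K, algebraMap K F a ∈ O ↔ a ∈ A) : ResidueField A →+* ResidueField O :=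
  ResidueField.map (inclHom hmem)

@[simp]
theorem resHom_residue (hmem : ∀ a : K, algebraMap K F a ∈ O ↔ a ∈ A) (a : A) :
    resHom hmem (residue A a) = residue O (inclHom hmem a) :=
  ResidueField.map_residue _ _

/-- `A[X] → O`, `X ↦ t`. -/
def polyHom (hmem : ∀ a : K, algebraMap K F a ∈ O ↔ a ∈ A) (t : O) : A[X] →+* O :=
  eval₂RingHom (inclHom hmem) t

theorem coe_polyHom (hmem : ∀ a : K, algebraMap K F a ∈ O ↔ a ∈ A) (t : O) (p : A[X]) :
    ((polyHom hmem t p : O) : F) = aeval (t : F) (p.map A.subtype) := by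
  have h1 : ((polyHom hmem t p : O) : F) = O.subtype (eval₂ (inclHom hmem) t p) := rfl
  rw [h1, hom_eval₂, aeval_def, eval₂_map]
  rfl

/-- `k_A[X] → k_O`, `X ↦ t̄`. -/
def evRes (hmem : ∀ a : K, algebraMap K F a ∈ O ↔ a ∈ A) (t : ResidueField O) :
    (ResidueField A)[X] →+* ResidueField O :=
  eval₂RingHom (resHom hmem) t

@[simp]
theorem evRes_C (hmem : ∀ a : K, algebraMap K F a ∈ O ↔ a ∈ A) (t : ResidueField O)
    (c : ResidueField A) : evRes hmem t (C c) = resHom hmem c :=
  eval₂_C _ _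

@[simp]
theorem evRes_X (hmem : ∀ a : K, algebraMap K F a ∈ O ↔ a ∈ A) (t : ResidueField O) :
    evRes hmem t X = t :=
  eval₂_X _ _

theorem residue_polyHom (hmem : ∀ a : K, algebraMap K F a ∈ O ↔ a ∈ A) (t : O) (p : A[X]) :
    residue O (polyHom hmem t p) = evRes hmem (residue O t) (p.map (residue A)) := by
  have h1 : residue O (polyHom hmem t p) = (residue O) (eval₂ (inclHom hmem) t p) := rfl
  have h2 : evRes hmem (residue O t) (p.map (residue A))
      = eval₂ (resHom hmem) (residue O t) (p.map (residue A)) := rfl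
  rw [h1, h2, hom_eval₂, eval₂_map]
  congr 1

/-- A polynomial with coefficients in `A`, one of them a unit, takes a unit value at `x`. -/
theorem gauss_unit (hA : A ≠ ⊤) (hmem : ∀ a : K, algebraMap K F a ∈ O ↔ a ∈ A)
    (hgauss : GaussHyp A O x) {p : K[X]} (hp : ∀ i, p.coeff i ∈ A)
    (hu : ∃ i, p.coeff i ≠ 0 ∧ (p.coeff i)⁻¹ ∈ A) :
    aeval x p ≠ 0 ∧ aeval x p ∈ O ∧ (aeval x p)⁻¹ ∈ O := by
  refine ⟨?_, hgauss p hp hu⟩
  obtain ⟨i, hi0, hi⟩ := hu
  have h1 : aeval x (C (p.coeff i)⁻¹ * p) ≠ 0 := by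
    apply aeval_ne_zero_of_primitive hA hmem hgauss
    · intro j
      rw [coeff_C_mul]
      exact A.mul_mem _ _ hi (hp j)
    · exact ⟨i, by rw [coeff_C_mul, inv_mul_cancel₀ hi0]⟩
  intro h0
  apply h1
  rw [map_mul, h0, mul_zero]

theorem mem_of_gauss (hgauss : GaussHyp A O x) : x ∈ O ∧ x⁻¹ ∈ O := by
  have h := hgauss X (fun i => by
      rw [coeff_X]
      split_ifs
      · exact A.one_mem
      · exact A.zero_mem) ⟨1, by simp, by simp [A.one_mem]⟩
  rwa [aeval_X] at h

/-- `x̄` is transcendental over the residue field of `A`. -/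
theorem evRes_ne_zero (hA : A ≠ ⊤) (hmem : ∀ a : K, algebraMap K F a ∈ O ↔ a ∈ A)
    (hgauss : GaussHyp A O x) (hx : x ∈ O) {P : (ResidueField A)[X]} (hP : P ≠ 0) :
    evRes hmem (residue O ⟨x, hx⟩) P ≠ 0 := by
  obtain ⟨p, rfl⟩ := map_surjective (residue A) residue_surjective P
  obtain ⟨i, hi⟩ : ∃ i, (p.map (residue A)).coeff i ≠ 0 := by
    by_contra h
    push Not at h
    exact hP (Polynomial.ext fun i => by rw [h i, coeff_zero])
  rw [coeff_map, residue_ne_zero_iff_isUnit] at hi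
  obtain ⟨hinv, h0⟩ := inv_mem_of_isUnit A hi
  have hunit := gauss_unit hA hmem hgauss (p := p.map A.subtype)
    (fun j => by rw [coeff_map]; exact (p.coeff j).2)
    ⟨i, by rw [coeff_map]; exact h0, by rw [coeff_map]; exact hinv⟩
  rw [← residue_polyHom, residue_ne_zero_iff_isUnit]
  have h1 := coe_polyHom hmem ⟨x, hx⟩ p
  have h2 : (polyHom hmem ⟨x, hx⟩ p : O) = ⟨aeval x (p.map A.subtype), hunit.2.1⟩ :=
    Subtype.ext h1
  rw [h2]
  exact isUnit_of_mem_of_inv_mem O hunit.2.1 hunit.2.2 hunit.1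

theorem coeff_mem_sub {p q : K[X]} (hp : ∀ i, p.coeff i ∈ A) (hq : ∀ i, q.coeff i ∈ A) :
    ∀ i, (p - q).coeff i ∈ A := fun i => by
  rw [coeff_sub]; exact A.sub_mem (hp i) (hq i)

theorem coeff_mem_X : ∀ i, (X : K[X]).coeff i ∈ A := fun i => by
  rw [coeff_X]
  split_ifs
  exacts [A.one_mem, A.zero_mem]

theorem coeff_mem_C {c : K} (hc : c ∈ A) : ∀ i, (C c : K[X]).coeff i ∈ A := fun i => by
  rw [coeff_C]
  split_ifs
  exacts [hc, A.zero_mem]

theorem coeff_mem_C_mul {c : K} (hc : c ∈ A) {p : K[X]} (hp : ∀ i, p.coeff i ∈ A) :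
    ∀ i, (C c * p).coeff i ∈ A := fun i => by
  rw [coeff_C_mul]; exact A.mul_mem _ _ hc (hp i)

/-- Auxiliary: a product of linear factors with roots outside the residue disc of `b` is
"the same constant times a unit" at `x` (in `O`) and at `b` (in `A`). -/
theorem exists_const_mul_unit (hA : A ≠ ⊤) (hmem : ∀ a : K, algebraMap K F a ∈ O ↔ a ∈ A)
    (hgauss : GaussHyp A O x) {b : K} (hb : b ∈ A) (s : Multiset K)
    (hs : ∀ c ∈ s, c - b ∉ A.nonunits) :
    ∃ d : K, d ≠ 0 ∧
      (∃ u : F, u ∈ O ∧ u⁻¹ ∈ O ∧ u ≠ 0 ∧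
        (s.map fun c => x - algebraMap K F c).prod = algebraMap K F d * u) ∧
      (∃ w : K, w ∈ A ∧ w⁻¹ ∈ A ∧ w ≠ 0 ∧ (s.map fun c => b - c).prod = d * w) := by
  induction s using Multiset.induction_on with
  | empty =>
    exact ⟨1, one_ne_zero, ⟨1, O.one_mem, by simp [O.one_mem], one_ne_zero, by simp⟩,
      ⟨1, A.one_mem, by simp [A.one_mem], one_ne_zero, by simp⟩⟩
  | cons c s ih =>
    obtain ⟨d, hd, ⟨u, hu, hui, hu0, hprod⟩, ⟨w, hw, hwi, hw0, hprod'⟩⟩ :=
      ih (fun c' hc' => hs c' (Multiset.mem_cons_of_mem hc'))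
    have hc := hs c (Multiset.mem_cons_self c s)
    by_cases hcA : c ∈ A
    · -- `c ∈ A`: `x - c` is a unit of `O`, `b - c` a unit of `A`
      have hun := gauss_unit hA hmem hgauss (p := X - C c)
        (coeff_mem_sub coeff_mem_X (coeff_mem_C hcA))
        ⟨1, by simp [coeff_X], by simp [coeff_X, A.one_mem]⟩
      rw [map_sub, aeval_X, aeval_C] at hun
      have hcb : c - b ∈ A := A.sub_mem hcA hb
      have hv : A.valuation (c - b) = 1 := by
        have h1 : A.valuation (c - b) ≤ 1 := (A.valuation_le_one_iff _).mpr hcb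
        rw [ValuationSubring.mem_nonunits_iff, not_lt] at hc
        exact le_antisymm h1 hc
      have hbc0 : b - c ≠ 0 := by
        intro h
        have : c - b = 0 := by rw [← neg_sub, h, neg_zero]
        rw [this, map_zero] at hv
        exact zero_ne_one hv
      have hvbc : A.valuation (b - c) = 1 := by rw [← neg_sub, Valuation.map_neg, hv]
      refine ⟨d, hd, ⟨(x - algebraMap K F c) * u, O.mul_mem _ _ hun.2.1 hu, ?_,
        mul_ne_zero hun.1 hu0, ?_⟩, ⟨(b - c) * w, A.mul_mem _ _ (A.sub_mem hb hcA) hw, ?_,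
        mul_ne_zero hbc0 hw0, ?_⟩⟩
      · rw [mul_inv]; exact O.mul_mem _ _ hun.2.2 hui
      · rw [Multiset.map_cons, Multiset.prod_cons, hprod]; ring
      · rw [mul_inv]
        refine A.mul_mem _ _ ?_ hwi
        rw [← A.valuation_le_one_iff, map_inv₀, hvbc, inv_one]
      · rw [Multiset.map_cons, Multiset.prod_cons, hprod']; ring
    · -- `c ∉ A`: `x - c = -c (1 - c⁻¹ x)`
      have hci : c⁻¹ ∈ A := (A.mem_or_inv_mem c).resolve_left hcA
      have hc0 : c ≠ 0 := fun h => hcA (h ▸ A.zero_mem)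
      have hvci : A.valuation c⁻¹ < 1 := by
        rw [map_inv₀]
        have h1 : 1 < A.valuation c := by
          rw [← not_le, A.valuation_le_one_iff]; exact hcA
        exact inv_lt_one_of_one_lt₀ h1
      have hun := gauss_unit hA hmem hgauss (p := C 1 - C c⁻¹ * X)
        (coeff_mem_sub (coeff_mem_C A.one_mem) (coeff_mem_C_mul hci coeff_mem_X))
        ⟨0, by simp [coeff_X], by simp [coeff_X, A.one_mem]⟩
      rw [C_1] at hun
      rw [map_sub, map_one, map_mul, aeval_X, aeval_C] at hun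
      have hbci : b * c⁻¹ ∈ A := A.mul_mem _ _ hb hci
      have hv1 : A.valuation (1 - b * c⁻¹) = 1 := by
        apply Valuation.map_one_sub_of_lt
        rw [map_mul]
        calc A.valuation b * A.valuation c⁻¹ ≤ 1 * A.valuation c⁻¹ :=
              mul_le_mul' ((A.valuation_le_one_iff _).mpr hb) le_rfl
          _ < 1 := by rw [one_mul]; exact hvci
      have hne1 : 1 - b * c⁻¹ ≠ 0 := by
        intro h; rw [h, map_zero] at hv1; exact zero_ne_one hv1
      refine ⟨-c * d, mul_ne_zero (neg_ne_zero.mpr hc0) hd,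
        ⟨(1 - algebraMap K F c⁻¹ * x) * u, O.mul_mem _ _ hun.2.1 hu, ?_,
          mul_ne_zero hun.1 hu0, ?_⟩,
        ⟨(1 - b * c⁻¹) * w, A.mul_mem _ _ (A.sub_mem A.one_mem hbci) hw, ?_,
          mul_ne_zero hne1 hw0, ?_⟩⟩
      · rw [mul_inv]; exact O.mul_mem _ _ hun.2.2 hui
      · rw [Multiset.map_cons, Multiset.prod_cons, hprod, map_mul, map_neg, map_inv₀]
        have hcF : algebraMap K F c ≠ 0 := by
          rwa [Ne, map_eq_zero_iff _ (algebraMap K F).injective]
        field_simp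
        ring
      · rw [mul_inv]
        refine A.mul_mem _ _ ?_ hwi
        rw [← A.valuation_le_one_iff, map_inv₀, hv1, inv_one]
      · rw [Multiset.map_cons, Multiset.prod_cons, hprod']
        field_simp
        ring

/-- **Weak root lemma.**  A primitive polynomial over `A` without roots in the residue disc
`b + m_A` has a reduction which does not vanish at `b̄`. -/
theorem residue_eval_ne_zero [IsAlgClosed K] (hA : A ≠ ⊤)
    (hmem : ∀ a : K, algebraMap K F a ∈ O ↔ a ∈ A) (hgauss : GaussHyp A O x)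
    (q : A[X]) (b : A) (hu : ∃ i, IsUnit (q.coeff i))
    (hroot : ∀ c : K, c - b ∈ A.nonunits → (q.map A.subtype).eval c ≠ 0) :
    (q.map (residue A)).eval (residue A b) ≠ 0 := by
  intro h0
  rw [eval_map, eval₂_at_apply, residue_eq_zero_iff] at h0
  set qK : K[X] := q.map A.subtype with hqK
  obtain ⟨i, hi⟩ := hu
  obtain ⟨hinv, hi0⟩ := inv_mem_of_isUnit A hi
  have hun := gauss_unit hA hmem hgauss (p := qK)
    (fun j => by rw [hqK, coeff_map]; exact (q.coeff j).2)
    ⟨i, by rw [hqK, coeff_map]; exact hi0, by rw [hqK, coeff_map]; exact hinv⟩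
  have hsplit := (IsAlgClosed.splits qK).eq_prod_roots
  obtain ⟨d, hd, ⟨u, hu, hui, hu0, hprod⟩, ⟨w, hw, hwi, hw0, hprod'⟩⟩ :=
    exists_const_mul_unit hA hmem hgauss b.2 qK.roots (fun c hc hcb =>
      hroot c hcb (mem_roots'.mp hc).2)
  set a := qK.leadingCoeff with ha
  -- value at `x`
  have h1 : aeval x qK = algebraMap K F (a * d) * u := by
    conv_lhs => rw [hsplit]
    rw [map_mul, aeval_C, map_multiset_prod, Multiset.map_map]
    have : (Multiset.map ((aeval x : K[X] →ₐ[K] F) ∘ fun c => X - C c) qK.roots)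
        = Multiset.map (fun c => x - algebraMap K F c) qK.roots := by
      refine Multiset.map_congr rfl fun c _ => ?_
      simp
    rw [this, hprod, map_mul]; ring
  have had0 : a * d ≠ 0 := by
    intro h
    rw [h, map_zero, zero_mul] at h1
    exact hun.1 h1
  have hadA : a * d ∈ A ∧ (a * d)⁻¹ ∈ A := by
    have e1 : algebraMap K F (a * d) = aeval x qK * u⁻¹ := by
      rw [h1, mul_assoc, mul_inv_cancel₀ hu0, mul_one]
    constructor
    · rw [← hmem, e1]; exact O.mul_mem _ _ hun.2.1 hui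
    · rw [← hmem, map_inv₀, e1, mul_inv, inv_inv]; exact O.mul_mem _ _ hun.2.2 hu
  -- value at `b`
  have h2 : ((q.eval b : A) : K) = a * d * w := by
    have e1 : ((q.eval b : A) : K) = qK.eval (b : K) := by
      rw [hqK, eval_map]
      exact (eval₂_at_apply A.subtype b).symm
    rw [e1]
    conv_lhs => rw [hsplit]
    rw [eval_mul, eval_C, eval_multiset_prod, Multiset.map_map]
    have : (Multiset.map ((fun p : K[X] => eval (b : K) p) ∘ fun c => X - C c) qK.roots)
        = Multiset.map (fun c => (b : K) - c) qK.roots := by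
      refine Multiset.map_congr rfl fun c _ => ?_
      simp
    rw [this, hprod']; ring
  have h3 : IsUnit (q.eval b) := by
    have h4 : (q.eval b : A) = ⟨a * d * w, A.mul_mem _ _ hadA.1 hw⟩ := Subtype.ext h2
    rw [h4]
    refine isUnit_of_mem_of_inv_mem A _ ?_ (mul_ne_zero had0 hw0)
    rw [mul_inv]
    exact A.mul_mem _ _ hadA.2 hwi
  exact (mem_nonunits_iff.mp ((mem_maximalIdeal _).mp h0)) h3

end Fermat.Agent.S18.H71
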