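/-
S18 / wave 4 (helper71), leaf C2 (`card_le_of_approx`), part (b2): from "no poles on a residue disc"
to INTEGRALITY OF THE REDUCTION.

`y ∈ F` a base function with the Gauss property, `F / K(y)` finite, every element of `O` integral
over `O ∩ K(y)`.  If `g ∈ O` has no poles at the places of `F` in the residue disc of `b ∈ A`
(for the base function `y`), then there are `S ∈ k_A[X]` with `S(b̄) ≠ 0` and a monic
`M ∈ k_A[X][T]` with `M(S(ȳ) ḡ) = 0` (coefficients evaluated at `ȳ`).

Proof: denominator lemma (`exists_denominator`) gives a primitive `s₀ ∈ A[X]` without roots in the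
disc such that `g' = s₀(y) g` is integral over `K[y]`; `g'` is also integral over `O ∩ K(y)`, so
its minimal polynomial over `K(y)` has coefficients in `K[y] ∩ O = A[y]`; reduce.
-/
import Mathlib
import Fermat.Agent.S18.H71.Fibre
import Fermat.Agent.S18.H71.Residue
import Fermat.Agent.S18.H80.Gauss

set_option autoImplicit false

open Polynomial IsLocalRing IntermediateField AlgebraicCurve

noncomputable section

namespace Fermat.Agent.S18.H71

open Fermat.Agent.S18.H49

variable {K : Type*} [Field K] {A : ValuationSubring K} {F : Type*} [Field F] [Algebra K F]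
  {O : ValuationSubring F}

/-- A polynomial with coefficients in `A` comes from `A[X]`. -/
theorem exists_map_subtype_eq {p : K[X]} (hp : ∀ i, p.coeff i ∈ A) :
    ∃ q : A[X], q.map A.subtype = p := by
  rw [← mem_lifts, lifts_iff_coeff_lifts]
  intro n
  exact ⟨⟨p.coeff n, hp n⟩, rfl⟩

theorem exists_integral_data [IsAlgClosed K] [CharZero K] (hA : A ≠ ⊤)
    (hmem : ∀ a : K, algebraMap K F a ∈ O ↔ a ∈ A) {y : F} (hgauss : GaussHyp A O y)
    [FiniteDimensional K⟮y⟯ F]
    (hint : ∀ g ∈ O, IsIntegral (O.comap (algebraMap K⟮y⟯ F)) g)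
    (hy : y ∈ O) (b : A) (g : O)
    (hg : ∀ (P : Place K F) (c : K), c - b ∈ A.nonunits →
      0 < P.ord (y - algebraMap K F c) → 0 ≤ P.ord (g : F)) :
    ∃ (S : (ResidueField A)[X]) (M : Polynomial (ResidueField A)[X]), M.Monic ∧
      S.eval (residue A b) ≠ 0 ∧
      M.eval₂ (evRes hmem (residue O ⟨y, hy⟩))
        (evRes hmem (residue O ⟨y, hy⟩) S * residue O g) = 0 := by
  classical
  -- algebra structures `K[X] → K(y) → F`, `X ↦ y`
  let algE : Algebra K[X] K⟮y⟯ := (aeval (AdjoinSimple.gen K y) : K[X] →ₐ[K] K⟮y⟯).toRingHom.toAlgebra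
  let algF : Algebra K[X] F := (aeval y : K[X] →ₐ[K] F).toRingHom.toAlgebra
  have hmapE : ∀ p : K[X], algebraMap K[X] K⟮y⟯ p = aeval (AdjoinSimple.gen K y) p := fun _ => rfl
  have hmapF : ∀ p : K[X], algebraMap K[X] F p = aeval y p := fun _ => rfl
  have hEF : ∀ p : K[X], ((algebraMap K[X] K⟮y⟯ p : K⟮y⟯) : F) = aeval y p := by
    intro p
    rw [hmapE]
    have := aeval_algebraMap_apply F (AdjoinSimple.gen K y) p
    rw [AdjoinSimple.algebraMap_gen] at this
    exact this.symm
  have tower : IsScalarTower K[X] K⟮y⟯ F :=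
    IsScalarTower.of_algebraMap_eq fun p => (hEF p).symm
  have htr : ∀ p : K[X], p ≠ 0 → aeval y p ≠ 0 := fun p hp =>
    Fermat.Agent.S18.H80.aeval_ne_zero hmem hgauss hA hp
  have : FaithfulSMul K[X] K⟮y⟯ := by
    rw [faithfulSMul_iff_algebraMap_injective, injective_iff_map_eq_zero]
    intro p hp
    by_contra hp0
    apply htr p hp0
    rw [← hEF, hp]
    rfl
  have : IsFractionRing K[X] K⟮y⟯ := by
    refine IsFractionRing.of_field K[X] K⟮y⟯ fun z => ?_
    obtain ⟨r, s, hrs⟩ := (IntermediateField.mem_adjoin_simple_iff K (z : F)).1 z.2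
    refine ⟨r, s, Subtype.ext ?_⟩
    rw [hrs]
    push_cast
    rw [hEF, hEF]
  have hK : ∀ a : K, algebraMap K[X] F (C a) = algebraMap K F a := fun a => by
    rw [hmapF, aeval_C]
  -- the denominator
  obtain ⟨s₁, hs₁0, hs₁int, hs₁root⟩ := exists_denominator K⟮y⟯ hK (g : F)
  obtain ⟨c₀, hc₀, hprim⟩ := Fermat.Agent.S18.H80.exists_smul_isPrim (A := A) hs₁0
  set s₀ : K[X] := C c₀ * s₁ with hs₀
  obtain ⟨sA, hsA⟩ := exists_map_subtype_eq hprim.1
  have hsAunit : ∃ i, IsUnit (sA.coeff i) := by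
    obtain ⟨i, hi0, hi⟩ := hprim.2
    refine ⟨i, ?_⟩
    have h1 : ((sA.coeff i : A) : K) = s₀.coeff i := by rw [← hsA, coeff_map]; rfl
    have h2 : sA.coeff i = ⟨s₀.coeff i, hprim.1 i⟩ := Subtype.ext h1
    rw [h2]
    exact isUnit_of_mem_of_inv_mem A _ hi hi0
  have hX : algebraMap K[X] F X = y := by rw [hmapF, aeval_X]
  have hS0 : (sA.map (residue A)).eval (residue A b) ≠ 0 := by
    apply residue_eval_ne_zero hA hmem hgauss sA b hsAunit
    intro c hc
    rw [hsA, hs₀, eval_mul, eval_C]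
    refine mul_ne_zero hc₀ (hs₁root c fun P hP => ?_)
    rw [hX] at hP
    exact hg P c hc hP
  -- `g' = s₀(y) g`
  set g' : F := aeval y s₀ * (g : F) with hg'
  have hs₀O : aeval y s₀ ∈ O := (hgauss s₀ hprim.1 hprim.2).1
  have hg'O : g' ∈ O := O.mul_mem _ _ hs₀O g.2
  have hg'int : IsIntegral K[X] g' := by
    have h1 : g' = algebraMap K[X] F (C c₀) * (algebraMap K[X] F s₁ * (g : F)) := by
      rw [hg', hs₀, map_mul, hmapF, hmapF, mul_assoc]
    rw [h1]
    exact isIntegral_algebraMap.mul hs₁int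
  have hg'int' : IsIntegral (O.comap (algebraMap K⟮y⟯ F)) g' := hint g' hg'O
  have e1 := minpoly.isIntegrallyClosed_eq_field_fractions' K⟮y⟯ hg'int
  have e2 := minpoly.isIntegrallyClosed_eq_field_fractions' K⟮y⟯ hg'int'
  set M₀ := minpoly K[X] g' with hM₀
  have hcoef : ∀ l i, (M₀.coeff l).coeff i ∈ A := by
    intro l
    rw [← aeval_mem_iff hA hmem hgauss, ← hEF]
    have h3 : algebraMap K[X] K⟮y⟯ (M₀.coeff l)
        = ((minpoly (O.comap (algebraMap K⟮y⟯ F)) g').coeff l : K⟮y⟯) := by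
      have := congrArg (fun q => q.coeff l) (e1.symm.trans e2)
      simp only [coeff_map] at this
      exact this
    rw [h3]
    exact ((minpoly (O.comap (algebraMap K⟮y⟯ F)) g').coeff l).2
  have hlift : M₀ ∈ lifts (mapRingHom A.subtype) := by
    rw [lifts_iff_coeff_lifts]
    intro l
    obtain ⟨q, hq⟩ := exists_map_subtype_eq (hcoef l)
    exact ⟨q, hq⟩
  obtain ⟨M, hM, -, hMmonic⟩ := lifts_and_degree_eq_and_monic hlift (minpoly.monic hg'int)
  -- evaluate in `O`
  set yO : O := ⟨y, hy⟩ with hyO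
  set ρ : A[X] →+* O := polyHom hmem yO with hρ
  have hρF : O.subtype.comp ρ = (algebraMap K[X] F).comp (mapRingHom A.subtype) := by
    ext p
    · simp [hρ, polyHom, hmapF]
    · simp [hρ, polyHom, hmapF, hyO]
  have hg'coe : ((ρ sA * g : O) : F) = g' := by
    have : ((ρ sA : O) : F) = aeval y s₀ := by
      rw [hρ, coe_polyHom, hsA]
    rw [hg', ← this]
    rfl
  have hev : M.eval₂ ρ (ρ sA * g) = 0 := by
    apply Subtype.ext
    have h1 : ((M.eval₂ ρ (ρ sA * g) : O) : F) = O.subtype (M.eval₂ ρ (ρ sA * g)) := rfl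
    rw [h1, hom_eval₂, hρF, ← eval₂_map, hM]
    have h2 : O.subtype (ρ sA * g) = g' := hg'coe
    rw [h2]
    exact minpoly.aeval K[X] g'
  -- reduce
  have hρres : (residue O).comp ρ
      = (evRes hmem (residue O yO)).comp (mapRingHom (residue A)) := by
    ext p
    · simp [hρ, polyHom, evRes]
    · simp [hρ, polyHom, evRes]
  refine ⟨sA.map (residue A), M.map (mapRingHom (residue A)), hMmonic.map _, hS0, ?_⟩
  have h3 := congrArg (residue O) hev
  rw [hom_eval₂, hρres, ← eval₂_map, map_zero, map_mul] at h3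
  have h4 : residue O (ρ sA) = evRes hmem (residue O yO) (sA.map (residue A)) := by
    rw [hρ, residue_polyHom]
  rw [h4] at h3
  exact h3

end Fermat.Agent.S18.H71
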