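/-
S18 / wave 4 (helper71), leaf C2 (`card_le_of_approx`), part (b3): the SPECIAL FIBRE as a finite
extension of `k_A(X)`.

* `ratHom : k_A(X) →+* k_O`, `X ↦ x̄` (uses the transcendence of `x̄`);
* `exists_ratHom_eq_residue` : the residue of an element of `O ∩ K(x)` lies in the image;
* `finite_and_finrank_le` : `k_O` is generated over `k_A(X)` by the reductions of an orthonormal
  `K(x)`-basis (S18/H80 `ResData`), so `[k_O : k_A(X)] ≤ μ`;
* `linearIndependent_residue` : an orthonormal family over `(K, A)` has `k_A`-independent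
  reductions;
* `exists_X_sub_C_mem` : every finite place of `k_A(X)` is a point `b̄`, `b ∈ A`;
* `invSubst` : `P ↦ P(1/X)` and its valuation at infinity.
-/
import Mathlib
import Fermat.Agent.S18.H71.Integral
import Fermat.Agent.S18.H80.Coord

set_option autoImplicit false

open Polynomial IsLocalRing IntermediateField IsDedekindDomain

noncomputable section

namespace Fermat.Agent.S18.H71

open Fermat.Agent.S18.H49

variable {K : Type*} [Field K] {A : ValuationSubring K} {F : Type*} [Field F] [Algebra K F]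
  {O : ValuationSubring F} {x : F}

/-- `k_A(X) → k_O`, `X ↦ x̄`. -/
def ratHom (hA : A ≠ ⊤) (hmem : ∀ a : K, algebraMap K F a ∈ O ↔ a ∈ A)
    (hgauss : GaussHyp A O x) (hx : x ∈ O) : RatFunc (ResidueField A) →+* ResidueField O :=
  RatFunc.liftRingHom (evRes hmem (residue O ⟨x, hx⟩)) (by
    intro P hP
    rw [Submonoid.mem_comap, mem_nonZeroDivisors_iff_ne_zero]
    exact evRes_ne_zero hA hmem hgauss hx (nonZeroDivisors.ne_zero hP))

section ratHom

variable (hA : A ≠ ⊤) (hmem : ∀ a : K, algebraMap K F a ∈ O ↔ a ∈ A)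
  (hgauss : GaussHyp A O x) (hx : x ∈ O)

@[simp]
theorem ratHom_algebraMap (P : (ResidueField A)[X]) :
    ratHom hA hmem hgauss hx (algebraMap _ _ P) = evRes hmem (residue O ⟨x, hx⟩) P :=
  RatFunc.liftRingHom_algebraMap _ _ _

@[simp]
theorem ratHom_C (c : ResidueField A) :
    ratHom hA hmem hgauss hx (RatFunc.C c) = resHom hmem c := by
  rw [← RatFunc.algebraMap_C, ratHom_algebraMap]
  simp [evRes]

@[simp]
theorem ratHom_X : ratHom hA hmem hgauss hx RatFunc.X = residue O ⟨x, hx⟩ := by
  rw [← RatFunc.algebraMap_X, ratHom_algebraMap]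
  simp [evRes]

/-- The residue of an element of `O ∩ K(x)` is a rational function of `x̄`. -/
theorem exists_ratHom_eq_residue (r : K⟮x⟯) (hr : (r : F) ∈ O) :
    ∃ ρ : RatFunc (ResidueField A), ratHom hA hmem hgauss hx ρ = residue O ⟨(r : F), hr⟩ := by
  by_cases hr0 : r = 0
  · subst hr0
    refine ⟨0, ?_⟩
    rw [map_zero]
    have : (⟨((0 : K⟮x⟯) : F), hr⟩ : O) = 0 := Subtype.ext rfl
    rw [this, map_zero]
  obtain ⟨c, p, q, hc0, hp, hq, hrepr⟩ := Fermat.Agent.S18.H80.exists_repr hmem hgauss hA r hr0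
  have hcA : c ∈ A :=
    (Fermat.Agent.S18.H80.mul_div_mem_iff hmem hgauss hA hp hq c).mp (hrepr ▸ hr)
  have hq0 : aeval x q ≠ 0 := Fermat.Agent.S18.H80.aeval_ne_zero hmem hgauss hA hq.ne_zero
  obtain ⟨pA, hpA⟩ := exists_map_subtype_eq hp.1
  obtain ⟨qA, hqA⟩ := exists_map_subtype_eq hq.1
  have hmul : (⟨(r : F), hr⟩ : O) * polyHom hmem ⟨x, hx⟩ qA
      = inclHom hmem ⟨c, hcA⟩ * polyHom hmem ⟨x, hx⟩ pA := by
    apply Subtype.ext
    push_cast
    rw [coe_polyHom, coe_polyHom, hpA, hqA, coe_inclHom, hrepr, div_mul_cancel₀ _ hq0]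
  have hres := congrArg (residue O) hmul
  rw [map_mul, map_mul, residue_polyHom, residue_polyHom, ← resHom_residue] at hres
  have hqbar : qA.map (residue A) ≠ 0 := by
    obtain ⟨i, hi0, hi⟩ := hq.2
    intro h
    have h1 : (qA.map (residue A)).coeff i = 0 := by rw [h, coeff_zero]
    rw [coeff_map, residue_eq_zero_iff] at h1
    have h2 : ((qA.coeff i : A) : K) = q.coeff i := by rw [← hqA, coeff_map]; rfl
    have h3 : qA.coeff i = ⟨q.coeff i, hq.1 i⟩ := Subtype.ext h2
    rw [h3] at h1
    exact (mem_nonunits_iff.mp ((mem_maximalIdeal _).mp h1)) (isUnit_of_mem_of_inv_mem A _ hi hi0)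
  have hqev := evRes_ne_zero hA hmem hgauss hx hqbar
  refine ⟨RatFunc.C (residue A ⟨c, hcA⟩) * algebraMap _ _ (pA.map (residue A))
    / algebraMap _ _ (qA.map (residue A)), ?_⟩
  rw [map_div₀, map_mul, ratHom_C, ratHom_algebraMap, ratHom_algebraMap, div_eq_iff hqev]
  exact hres.symm

end ratHom

/-- `k_O` is finite over `k_A(X)` of degree at most `μ`. -/
theorem finite_and_finrank_le {μ : ℕ} {θ : Fin μ → F}
    (D : Fermat.Agent.S18.H80.ResData A O x θ) (hx : x ∈ O) :
    letI := (ratHom D.ne_top D.mem_iff D.gauss hx).toAlgebra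
    Module.Finite (RatFunc (ResidueField A)) (ResidueField O) ∧
      Module.finrank (RatFunc (ResidueField A)) (ResidueField O) ≤ μ := by
  let _ := (ratHom D.ne_top D.mem_iff D.gauss hx).toAlgebra
  set θb : Fin μ → ResidueField O := fun i => residue O ⟨θ i, D.theta_mem i⟩ with hθb
  have hspan : Submodule.span (RatFunc (ResidueField A)) (Set.range θb) = ⊤ := by
    rw [eq_top_iff]
    intro z _
    obtain ⟨g, rfl⟩ := residue_surjective z
    have hr : ∀ i, ((D.basisF.repr (g : F) i : K⟮x⟯) : F) ∈ O := fun i => D.repr_mem g.2 i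
    choose ρ hρ using fun i =>
      exists_ratHom_eq_residue D.ne_top D.mem_iff D.gauss hx (D.basisF.repr (g : F) i) (hr i)
    have hg : g = ∑ i, (⟨_, hr i⟩ : O) * ⟨θ i, D.theta_mem i⟩ := by
      apply Subtype.ext
      push_cast
      exact (D.sum_repr (g : F)).symm
    rw [hg, map_sum]
    refine Submodule.sum_mem _ fun i _ => ?_
    rw [map_mul, ← hρ i]
    exact Submodule.smul_mem _ (ρ i) (Submodule.subset_span ⟨i, rfl⟩)
  have hfin : Module.Finite (RatFunc (ResidueField A)) (ResidueField O) := by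
    rw [Module.finite_def, ← hspan]
    exact Submodule.fg_span (Set.finite_range θb)
  refine ⟨hfin, ?_⟩
  have h1 := finrank_range_le_card (R := RatFunc (ResidueField A)) θb
  rw [Set.finrank, hspan, finrank_top, Fintype.card_fin] at h1
  exact h1

/-- An orthonormal family over `(K, A)` has linearly independent reductions. -/
theorem linearIndependent_residue (hA : A ≠ ⊤) (hmem : ∀ a : K, algebraMap K F a ∈ O ↔ a ∈ A)
    (hscale : ∀ f : F, f ≠ 0 →
      ∃ c : K, c ≠ 0 ∧ algebraMap K F c * f ∈ O ∧ (algebraMap K F c * f)⁻¹ ∈ O)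
    {d : ℕ} (f : Fin d → F) (hON : ∀ c : Fin d → K, (∑ i, c i • f i) ∈ O ↔ ∀ i, c i ∈ A)
    (hf : ∀ i, f i ∈ O) :
    letI := (resHom (A := A) (O := O) hmem).toAlgebra
    LinearIndependent (ResidueField A) (fun i => residue O ⟨f i, hf i⟩) := by
  let _ := (resHom (A := A) (O := O) hmem).toAlgebra
  rw [Fintype.linearIndependent_iff]
  intro cb hcb i₀
  choose c hc using fun i => residue_surjective (cb i)
  -- the combination `G = ∑ c_i f_i` is a nonunit of `O`
  set G : F := ∑ i, ((c i : A) : K) • f i with hG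
  have hGO : G ∈ O := (hON _).mpr fun i => (c i).2
  have hGres : residue O ⟨G, hGO⟩ = 0 := by
    have h1 : (⟨G, hGO⟩ : O) = ∑ i, inclHom hmem (c i) * ⟨f i, hf i⟩ := by
      apply Subtype.ext
      push_cast
      rw [hG]
      refine Finset.sum_congr rfl fun i _ => ?_
      rw [Algebra.smul_def, coe_inclHom]
    rw [h1, map_sum, ← hcb]
    refine Finset.sum_congr rfl fun i _ => ?_
    rw [map_mul, ← resHom_residue, hc i, Algebra.smul_def]
    rfl
  rw [residue_eq_zero_iff] at hGres
  have hGnon : ¬ IsUnit (⟨G, hGO⟩ : O) := mem_nonunits_iff.mp ((mem_maximalIdeal _).mp hGres)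
  -- suppose `c i₀` is a unit
  rw [← hc i₀]
  by_contra hne
  rw [← ne_eq, residue_ne_zero_iff_isUnit] at hne
  obtain ⟨hinv, hne0⟩ := inv_mem_of_isUnit A hne
  -- a scalar `t ∉ A` with `t • G ∈ O`
  obtain ⟨t, htA, htG⟩ : ∃ t : K, t ∉ A ∧ t • G ∈ O := by
    by_cases hG0 : G = 0
    · obtain ⟨t, ht⟩ := exists_not_mem_of_ne_top A hA
      exact ⟨t, ht, by rw [hG0, smul_zero]; exact O.zero_mem⟩
    · obtain ⟨t, ht0, ht1, ht2⟩ := hscale G hG0
      refine ⟨t, fun htA => hGnon ?_, by rw [Algebra.smul_def]; exact ht1⟩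
      have htO : algebraMap K F t ∈ O := (hmem t).mpr htA
      have hGinv : G⁻¹ ∈ O := by
        have : G⁻¹ = (algebraMap K F t * G)⁻¹ * algebraMap K F t := by
          have htF : algebraMap K F t ≠ 0 := by
            rwa [Ne, map_eq_zero_iff _ (algebraMap K F).injective]
          field_simp
        rw [this]
        exact O.mul_mem _ _ ht2 htO
      exact isUnit_of_mem_of_inv_mem O hGO hGinv hG0
  have h2 : t • G = ∑ i, (t * ((c i : A) : K)) • f i := by
    rw [hG, Finset.smul_sum]
    refine Finset.sum_congr rfl fun i _ => ?_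
    rw [mul_smul]
  rw [h2] at htG
  have h3 := (hON _).mp htG i₀
  apply htA
  have : t = t * ((c i₀ : A) : K) * ((c i₀ : A) : K)⁻¹ := by
    rw [mul_assoc, mul_inv_cancel₀ hne0, mul_one]
  rw [this]
  exact A.mul_mem _ _ h3 hinv

/-- The residue field of a valuation ring of an algebraically closed field has roots for monic
polynomials of positive degree. -/
theorem exists_residue_root [IsAlgClosed K] (P : (ResidueField A)[X]) (hP : P.Monic)
    (hdeg : P.natDegree ≠ 0) : ∃ b : A, P.eval (residue A b) = 0 := by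
  have hl : P ∈ lifts (residue A) := by
    rw [mem_lifts]
    exact map_surjective (residue A) residue_surjective P
  obtain ⟨q, hq, hqdeg, hqmonic⟩ := lifts_and_degree_eq_and_monic hl hP
  have hqK : (q.map A.subtype).degree ≠ 0 := by
    rw [degree_map_eq_of_injective A.subtype_injective, hqdeg,
      degree_eq_natDegree hP.ne_zero]
    exact_mod_cast hdeg
  obtain ⟨α, hα⟩ := IsAlgClosed.exists_root (q.map A.subtype) hqK
  have hint : IsIntegral A α := by
    refine ⟨q, hqmonic, ?_⟩
    have : eval₂ (algebraMap A K) α q = (q.map A.subtype).eval α := by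
      rw [eval_map]; rfl
    rw [this]
    exact hα
  obtain ⟨a, ha⟩ := IsIntegrallyClosed.isIntegral_iff.mp hint
  refine ⟨a, ?_⟩
  have h0 : q.eval a = 0 := by
    apply Subtype.ext
    have : ((q.eval a : A) : K) = (q.map A.subtype).eval α := by
      rw [eval_map, ← ha]
      exact (eval₂_at_apply A.subtype a).symm
    rw [this]
    exact hα
  rw [← hq, eval_map, eval₂_at_apply, h0, map_zero]

/-- Every finite place of `k_A(X)` is a point `b̄` with `b ∈ A`. -/
theorem exists_X_sub_C_mem [IsAlgClosed K] (v : HeightOneSpectrum (ResidueField A)[X]) :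
    ∃ b : A, X - C (residue A b) ∈ v.asIdeal := by
  set π := Submodule.IsPrincipal.generator v.asIdeal with hπ
  have hprime : Prime π := Submodule.IsPrincipal.prime_generator_of_isPrime v.asIdeal v.ne_bot
  have hπ0 : π ≠ 0 := hprime.ne_zero
  have hmonic := monic_mul_leadingCoeff_inv hπ0
  have hlc : π.leadingCoeff⁻¹ ≠ 0 := inv_ne_zero (leadingCoeff_ne_zero.mpr hπ0)
  have hdeg : (π * C π.leadingCoeff⁻¹).natDegree ≠ 0 := by
    rw [natDegree_mul_C hlc]
    intro h
    apply hprime.not_isUnit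
    rw [eq_C_of_natDegree_eq_zero h]
    exact isUnit_C.mpr (IsUnit.mk0 _ (fun h0 => hπ0 (by rw [eq_C_of_natDegree_eq_zero h, h0, C_0])))
  obtain ⟨b, hb⟩ := exists_residue_root (A := A) _ hmonic hdeg
  rw [eval_mul, eval_C, mul_eq_zero] at hb
  have hroot : π.IsRoot (residue A b) := hb.resolve_right hlc
  obtain ⟨t, ht⟩ := dvd_iff_isRoot.mpr hroot
  refine ⟨b, ?_⟩
  rcases hprime.irreducible.isUnit_or_isUnit ht with h | h
  · exact absurd h (not_isUnit_X_sub_C _)
  · obtain ⟨u, rfl⟩ := h
    have h1 : X - C (residue A b) = π * ((u⁻¹ : (ResidueField A)[X]ˣ) : (ResidueField A)[X]) := by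
      rw [ht, mul_assoc, Units.mul_inv, mul_one]
    rw [h1]
    exact Ideal.mul_mem_right _ _ (Submodule.IsPrincipal.generator_mem v.asIdeal)

theorem notMem_of_eval_ne_zero {k : Type*} [Field k] (v : HeightOneSpectrum k[X]) {b : k}
    (hb : X - C b ∈ v.asIdeal) {S : k[X]} (hS : S.eval b ≠ 0) : S ∉ v.asIdeal := by
  intro hSv
  have hroot : (S - C (S.eval b)).IsRoot b := by simp [IsRoot]
  obtain ⟨t, ht⟩ := dvd_iff_isRoot.mpr hroot
  have h1 : C (S.eval b) = S - (X - C b) * t := by rw [← ht]; ring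
  have h2 : C (S.eval b) ∈ v.asIdeal := by
    rw [h1]
    exact Ideal.sub_mem _ hSv (Ideal.mul_mem_right _ _ hb)
  exact v.isPrime.ne_top (Ideal.eq_top_of_isUnit_mem _ h2 (isUnit_C.mpr (IsUnit.mk0 _ hS)))

section invSubst

variable (k : Type*) [Field k]

/-- `P ↦ P(1/X)`. -/
def invSubst : k[X] →+* RatFunc k :=
  eval₂RingHom (algebraMap k (RatFunc k)) (RatFunc.X)⁻¹

variable {k} [DecidableEq (RatFunc k)]

theorem inftyValuation_C_le (c : k) : RatFunc.inftyValuation k (RatFunc.C c) ≤ 1 := by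
  by_cases hc : c = 0
  · rw [hc, map_zero, map_zero]; exact zero_le_one
  · rw [RatFunc.inftyValuation.C k hc]

theorem inftyValuation_X_inv_lt : RatFunc.inftyValuation k (RatFunc.X : RatFunc k)⁻¹ < 1 := by
  rw [map_inv₀, RatFunc.inftyValuation.X, ← WithZero.exp_neg, ← WithZero.exp_zero,
    WithZero.exp_lt_exp]
  norm_num

theorem inftyValuation_invSubst_le (P : k[X]) :
    RatFunc.inftyValuation k (invSubst k P) ≤ 1 := by
  induction P using Polynomial.induction_on' with
  | add p q hp hq =>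
    rw [map_add]
    exact Valuation.map_add_le _ hp hq
  | monomial n a =>
    have h1 : invSubst k (monomial n a) = RatFunc.C a * (RatFunc.X : RatFunc k)⁻¹ ^ n := by
      simp [invSubst, RatFunc.algebraMap_eq_C]
    rw [h1, map_mul, map_pow]
    exact mul_le_one' (inftyValuation_C_le a) (pow_le_one' inftyValuation_X_inv_lt.le n)

theorem inftyValuation_invSubst_eq_one {S : k[X]} (hS : S.coeff 0 ≠ 0) :
    RatFunc.inftyValuation k (invSubst k S) = 1 := by
  have h1 : invSubst k S = RatFunc.C (S.coeff 0) + invSubst k S.divX * (RatFunc.X : RatFunc k)⁻¹ := by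
    conv_lhs => rw [← divX_mul_X_add S]
    rw [map_add, map_mul, add_comm]
    congr 1
    · simp [invSubst, RatFunc.algebraMap_eq_C]
    · simp [invSubst]
  rw [h1]
  have h2 : RatFunc.inftyValuation k (invSubst k S.divX * (RatFunc.X : RatFunc k)⁻¹)
      < RatFunc.inftyValuation k (RatFunc.C (S.coeff 0)) := by
    rw [RatFunc.inftyValuation.C k hS, map_mul]
    calc _ ≤ 1 * RatFunc.inftyValuation k (RatFunc.X : RatFunc k)⁻¹ :=
          mul_le_mul' (inftyValuation_invSubst_le _) le_rfl
      _ < 1 := by rw [one_mul]; exact inftyValuation_X_inv_lt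
  rw [Valuation.map_add_eq_of_lt_left _ h2, RatFunc.inftyValuation.C k hS]

end invSubst

end Fermat.Agent.S18.H71
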