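/-
S18 / wave 4 (helper71): leaf C2 = L2 `card_le_of_approx` of the Program J skeleton
(S18/H74 `Setup`, `IsON`, `discRing`), VERBATIM (skeleton v6); and the exact form
`card_le_of_approx_exact` with `c₀ = 1`.

An orthonormal family in `F` whose members are, modulo `m_O`, pole-free on every finite residue
disc and have poles of order `≤ n` on the disc at infinity, has at most `(n+1) μ` members,
`μ = [F : K(x)]`.

Assembly of
* `exists_integral_data` (H71/Integral: denominator lemma on the generic fibre + reduction),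
  applied to the base functions `x` (finite discs) and `x⁻¹` (disc at infinity);
* `finite_and_finrank_le`, `linearIndependent_residue`, `exists_X_sub_C_mem` (H71/Special);
* the residue plumbing of S18/H80 (orthonormal basis, Cayley–Hamilton in `O`);
* the exact count on the special fibre S18/H79 `card_le_of_isIntegral_ratFunc`.
-/
import Mathlib
import Fermat.Agent.S18.H71.Special
import Fermat.Agent.S18.H74.CoreDefs
import Fermat.Agent.S18.H80.OfSetup
import Fermat.Agent.S18.H64.SetupInvFields
import Fermat.Agent.S18.H79.CountRatFunc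

set_option autoImplicit false

open Polynomial IsLocalRing IntermediateField IsDedekindDomain AlgebraicCurve

noncomputable section

namespace Fermat.Agent.S18.H71

open Fermat.Agent.S18.H49 Fermat.Agent.S18.H74

/-- An element of the base field lying in a valuation ring is integral over it. -/
theorem isIntegral_algebraMap_of_mem_valuationSubring {κ : Type*} [Field κ] {L : Type*} [Field L]
    [Algebra κ L] (V : ValuationSubring κ) {a : κ} (ha : a ∈ V) :
    IsIntegral V (algebraMap κ L a) := by
  have : algebraMap κ L a = algebraMap V L ⟨a, ha⟩ := rfl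
  rw [this]
  exact isIntegral_algebraMap

/-- Integrality over a valuation ring `V` from a monic equation for `σ(s) z` with coefficients in
`σ(R) ⊆ V`, when `σ(s)` is a unit of `V`. -/
theorem isIntegral_of_monic_eval₂ {κ : Type*} [Field κ] {L : Type*} [Field L] [Algebra κ L]
    (V : ValuationSubring κ) {R : Type*} [CommRing R] (σ : R →+* κ) (hσ : ∀ r, σ r ∈ V)
    {s : R} (hs0 : σ s ≠ 0) (hs : (σ s)⁻¹ ∈ V) {M : Polynomial R} (hM : M.Monic) {z : L}
    (hev : M.eval₂ ((algebraMap κ L).comp σ) (algebraMap κ L (σ s) * z) = 0) :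
    IsIntegral V z := by
  have hw : IsIntegral V (algebraMap κ L (σ s) * z) := by
    refine ⟨M.map (σ.codRestrict V.toSubring hσ), hM.map _, ?_⟩
    rw [eval₂_map]
    exact hev
  have hz : z = algebraMap κ L (σ s)⁻¹ * (algebraMap κ L (σ s) * z) := by
    rw [← mul_assoc, ← map_mul, inv_mul_cancel₀ hs0, map_one, one_mul]
  rw [hz]
  exact (isIntegral_algebraMap_of_mem_valuationSubring V hs).mul hw

variable {K : Type*} [Field K] {A : ValuationSubring K} {F : Type*} [Field F] [Algebra K F]
  {O : ValuationSubring F} {x : F}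

/-- **Leaf C2 = L2 of the Program J skeleton, exact form** (`c₀ = 1`, the statement of skeleton
v2–v4). -/
theorem card_le_of_approx_exact [IsAlgClosed K] [CharZero K] (hA : A ≠ ⊤) (hS : Setup K A F O x)
    (n d : ℕ) (f : Fin d → F) (hON : IsON A O f)
    (hfin : ∀ i, ∀ b ∈ A, ∃ f' ∈ discRing A O x b, f i - f' ∈ O.nonunits)
    (hinf : ∀ i, ∃ f' : F, x⁻¹ ^ n * f' ∈ discRing A O x⁻¹ 0 ∧ f i - f' ∈ O.nonunits) :
    d ≤ (n + 1) * Module.finrank K⟮x⟯ F := by
  classical
  obtain ⟨θ, D⟩ := Fermat.Agent.S18.H80.exists_resData hA hS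
  have hmem := hS.mem_iff
  have hgauss : GaussHyp A O x := hS.gauss
  obtain ⟨hx, hxi⟩ := mem_of_gauss hgauss
  have hx0 : x ≠ 0 := by
    have := (gauss_unit hA hmem hgauss (p := X) coeff_mem_X
      ⟨1, by simp, by simp [A.one_mem]⟩).1
    rwa [aeval_X] at this
  have := hS.finite
  -- the special fibre as an extension of `k_A(X)`
  let algk : Algebra (ResidueField A) (ResidueField O) := (resHom hmem).toAlgebra
  let algR : Algebra (RatFunc (ResidueField A)) (ResidueField O) :=
    (ratHom hA hmem hgauss hx).toAlgebra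
  have : IsScalarTower (ResidueField A) (RatFunc (ResidueField A)) (ResidueField O) :=
    IsScalarTower.of_algebraMap_eq fun c => by
      show resHom hmem c = ratHom hA hmem hgauss hx (algebraMap _ _ c)
      rw [RatFunc.algebraMap_eq_C, ratHom_C]
  obtain ⟨hfinite, hrank⟩ := finite_and_finrank_le D hx
  have : FiniteDimensional (RatFunc (ResidueField A)) (ResidueField O) := hfinite
  have hmapR : ∀ ρ, algebraMap (RatFunc (ResidueField A)) (ResidueField O) ρ
      = ratHom hA hmem hgauss hx ρ := fun _ => rfl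
  -- the family and its reductions
  have hfO : ∀ i, f i ∈ O := fun i => by
    have h := (hON (Pi.single i 1)).mpr (fun j => by
      by_cases h : j = i
      · subst h; simp [A.one_mem]
      · simp [h, A.zero_mem])
    simpa [Pi.single_apply, ite_smul] using h
  set gb : Fin d → ResidueField O := fun i => residue O ⟨f i, hfO i⟩ with hgb
  have hli : LinearIndependent (ResidueField A) gb :=
    linearIndependent_residue hA hmem hS.scale f hON hfO
  have hres : ∀ (i : Fin d) (f' : F) (hf' : f' ∈ O), f i - f' ∈ O.nonunits →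
      residue O ⟨f', hf'⟩ = gb i := by
    intro i f' hf' h
    have h1 : (⟨f i, hfO i⟩ - ⟨f', hf'⟩ : O) ∈ maximalIdeal O :=
      ValuationSubring.coe_mem_nonunits_iff.mp h
    rw [← residue_eq_zero_iff, map_sub, sub_eq_zero] at h1
    exact h1.symm
  -- every element of `O` is integral over `O ∩ K(x)`
  have hintOL : ∀ g ∈ O, IsIntegral (O.comap (algebraMap K⟮x⟯ F)) g := by
    intro g hg
    refine ⟨D.charpolyO ⟨g, hg⟩, D.charpolyO_monic _, ?_⟩
    have h1 := congrArg O.subtype (D.eval₂_charpolyO ⟨g, hg⟩)
    rw [hom_eval₂, map_zero] at h1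
    exact h1
  -- integrality at the finite places
  have hfinint : ∀ i, ∀ v : HeightOneSpectrum (ResidueField A)[X],
      IsIntegral (Fermat.Agent.S18.H79.VFin (ResidueField A) v) (gb i) := by
    intro i v
    obtain ⟨b, hb⟩ := exists_X_sub_C_mem (A := A) v
    obtain ⟨f', hf', hff'⟩ := hfin i b b.2
    obtain ⟨S, M, hMmonic, hS0, hev⟩ := exists_integral_data hA hmem hgauss hintOL hx b
      ⟨f', hf'.1⟩ (fun P c hc hP => hf'.2 P ⟨c, hc, hP⟩)
    rw [hres i f' hf'.1 hff'] at hev
    have hSv : S ∉ v.asIdeal := notMem_of_eval_ne_zero v hb hS0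
    have hval : v.valuation (RatFunc (ResidueField A))
        (algebraMap (ResidueField A)[X] (RatFunc (ResidueField A)) S) = 1 := by
      rw [v.valuation_of_algebraMap]
      exact HeightOneSpectrum.intValuation_eq_one_iff.mpr hSv
    have hS0' : algebraMap (ResidueField A)[X] (RatFunc (ResidueField A)) S ≠ 0 := by
      intro h; rw [h, map_zero] at hval; exact zero_ne_one hval
    refine isIntegral_of_monic_eval₂ (Fermat.Agent.S18.H79.VFin (ResidueField A) v)
      (algebraMap (ResidueField A)[X] (RatFunc (ResidueField A)))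
      (fun r => (Valuation.mem_valuationSubring_iff _ _).mpr (v.valuation_le_one r))
      hS0' ?_ hMmonic ?_
    · rw [Valuation.mem_valuationSubring_iff, map_inv₀, hval, inv_one]
    · have hcomp : (algebraMap (RatFunc (ResidueField A)) (ResidueField O)).comp
          (algebraMap (ResidueField A)[X] (RatFunc (ResidueField A)))
          = evRes hmem (residue O ⟨x, hx⟩) := by
        ext P
        · simp [hmapR]
        · simp [hmapR]
      rw [hcomp, hmapR, ratHom_algebraMap]
      exact hev
  -- integrality at infinity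
  have hgaussi : GaussHyp A O x⁻¹ := Fermat.Agent.S18.H64.gauss_inv A O x hgauss
  have : FiniteDimensional K⟮x⁻¹⟯ F :=
    Fermat.Agent.S18.H64.transport_adjoin_inv K x (fun E => FiniteDimensional E F) hS.finite
  have hinti : ∀ g ∈ O, IsIntegral (O.comap (algebraMap K⟮x⁻¹⟯ F)) g :=
    Fermat.Agent.S18.H64.transport_adjoin_inv K x
      (fun E => ∀ g ∈ O, IsIntegral (O.comap (algebraMap E F)) g) hintOL
  have hxibar : residue O ⟨x⁻¹, hxi⟩ = (residue O ⟨x, hx⟩)⁻¹ := by
    have h1 : (⟨x, hx⟩ : O) * ⟨x⁻¹, hxi⟩ = 1 := Subtype.ext (mul_inv_cancel₀ hx0)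
    have h2 := congrArg (residue O) h1
    rw [map_mul, map_one] at h2
    exact eq_inv_of_mul_eq_one_right h2
  have hcompi : (algebraMap (RatFunc (ResidueField A)) (ResidueField O)).comp
      (invSubst (ResidueField A)) = evRes hmem (residue O ⟨x⁻¹, hxi⟩) := by
    ext P
    · simp [hmapR, invSubst, RatFunc.algebraMap_eq_C]
    · simp [hmapR, invSubst, hxibar]
  have hinfint : ∀ i, IsIntegral (Fermat.Agent.S18.H79.VInf (ResidueField A))
      (algebraMap (RatFunc (ResidueField A)) (ResidueField O)
        ((RatFunc.X : RatFunc (ResidueField A))⁻¹ ^ n) * gb i) := by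
    intro i
    obtain ⟨f', hf', hff'⟩ := hinf i
    have hf'O : f' ∈ O := by
      have h1 : f' = f i - (f i - f') := by ring
      rw [h1]
      exact O.sub_mem (hfO i) (O.nonunits_subset hff')
    obtain ⟨S, M, hMmonic, hS0, hev⟩ := exists_integral_data hA hmem hgaussi hinti hxi (0 : A)
      ⟨x⁻¹ ^ n * f', hf'.1⟩ (fun P c hc hP => hf'.2 P ⟨c, by simpa using hc, hP⟩)
    have hz : residue O ⟨x⁻¹ ^ n * f', hf'.1⟩
        = algebraMap (RatFunc (ResidueField A)) (ResidueField O)
          ((RatFunc.X : RatFunc (ResidueField A))⁻¹ ^ n) * gb i := by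
      have h1 : (⟨x⁻¹ ^ n * f', hf'.1⟩ : O) = ⟨x⁻¹, hxi⟩ ^ n * ⟨f', hf'O⟩ := Subtype.ext rfl
      rw [h1, map_mul, map_pow, hres i f' hf'O hff', hxibar, hmapR, map_pow, map_inv₀, ratHom_X]
    rw [hz] at hev
    have hS0c : S.coeff 0 ≠ 0 := by
      rw [map_zero] at hS0
      rwa [coeff_zero_eq_eval_zero]
    have hval := inftyValuation_invSubst_eq_one hS0c
    have hS0' : invSubst (ResidueField A) S ≠ 0 := by
      intro h; rw [h, map_zero] at hval; exact zero_ne_one hval
    refine isIntegral_of_monic_eval₂ (Fermat.Agent.S18.H79.VInf (ResidueField A))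
      (invSubst (ResidueField A))
      (fun r => (Valuation.mem_valuationSubring_iff _ _).mpr (inftyValuation_invSubst_le r))
      hS0' ?_ hMmonic ?_
    · rw [Valuation.mem_valuationSubring_iff, map_inv₀, hval, inv_one]
    · rw [hcompi]
      have h2 : algebraMap (RatFunc (ResidueField A)) (ResidueField O)
          (invSubst (ResidueField A) S) = evRes hmem (residue O ⟨x⁻¹, hxi⟩) S := by
        rw [← hcompi]; rfl
      rw [h2]
      exact hev
  -- the count
  have hcount := Fermat.Agent.S18.H79.card_le_of_isIntegral_ratFunc (ResidueField A) n d gb hli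
    hfinint hinfint
  exact hcount.trans (Nat.mul_le_mul_left _ hrank)

/-- **Leaf C2 = L2 of the Program J skeleton, VERBATIM** (skeleton v6 `Core.lean`
`card_le_of_approx`; the shape consumed by the assembly S18/H25 `absT_prime_of_leaves`). -/
theorem card_le_of_approx [IsAlgClosed K] [CharZero K] (hA : A ≠ ⊤) (hS : Setup K A F O x) :
    ∃ c₀ : ℕ, ∀ (n d : ℕ) (f : Fin d → F), IsON A O f →
      (∀ i, ∀ b ∈ A, ∃ f' ∈ discRing A O x b, f i - f' ∈ O.nonunits) →
      (∀ i, ∃ f' : F, x⁻¹ ^ n * f' ∈ discRing A O x⁻¹ 0 ∧ f i - f' ∈ O.nonunits) →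
      d ≤ (n + c₀) * Module.finrank K⟮x⟯ F :=
  ⟨1, fun n d f hON hfin hinf => card_le_of_approx_exact hA hS n d f hON hfin hinf⟩

end Fermat.Agent.S18.H71
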